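import Fermat.Agent.CFT.Euler.Lattices

/-!
The Euler index of a splitting module against that of the class formation module.
-/

set_option autoImplicit false
set_option linter.unusedSectionVars false
set_option linter.style.haveILetI false

noncomputable section

namespace Fermat.Agent.CFT.Euler

open Fermat.Agent.CFT

variable (G : Type) [Group G] (A : Type) [AddCommGroup A] [DistribMulAction G A]

/-- The invariant elements. -/
def fixPts : AddSubgroup A where
  carrier := {a | ∀ g : G, g • a = a}
  add_mem' {a b} ha hb g := by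
    show g • (a + b) = a + b
    rw [smul_add, ha g, hb g]
  zero_mem' g := smul_zero g
  neg_mem' {a} ha g := by
    show g • -a = -a
    rw [smul_neg, ha g]

variable {G A} {p : ℕ} [hp : Fact p.Prime]

theorem finite_dual [Finite A] : Finite (A →+ ZMod p) :=
  Finite.of_injective (fun f : A →+ ZMod p => fun a => f a) fun _ _ h =>
    AddMonoidHom.ext (congrFun h)

theorem card_linear_dual [Finite A] [Module (ZMod p) A] :
    Nat.card (A →ₗ[ZMod p] ZMod p) = Nat.card A := by
  haveI : Module.Finite (ZMod p) A := Module.Finite.of_finite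
  haveI : Module.Finite (ZMod p) (Module.Dual (ZMod p) A) := inferInstance
  rw [Module.natCard_eq_pow_finrank (K := ZMod p),
    Module.natCard_eq_pow_finrank (K := ZMod p) (V := A)]
  exact congrArg _ Subspace.dual_finrank_eq

/-- A finite module killed by `p` has as many functionals as elements. -/
theorem card_dual [Finite A] (hA : ∀ a : A, p • a = 0) :
    Nat.card (A →+ ZMod p) = Nat.card A := by
  letI : Module (ZMod p) A := AddCommGroup.zmodModule hA
  refine Eq.trans ?_ (card_linear_dual (A := A) (p := p))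
  exact Nat.card_congr ⟨fun f => AddMonoidHom.toZModLinearMap p f, fun f => f.toAddMonoidHom,
    fun _ => rfl, fun _ => rfl⟩

variable [Fintype G] {C : Type} [AddCommGroup C] [DistribMulAction G C] {u : NormCocycle G C}
  (X : Pres p G A)

/-- The connecting functional of an equivariant homomorphism into a splitting module. -/
def splitFun (f : equivHom (C := Split u) X.hS) : A →+ ZMod p :=
  AddMonoidHom.liftOfSurjective X.π X.surj
    ⟨(((Int.castAddHom (ZMod p)).comp (Split.coord 1)).comp f.1).comp
      ((mulP X.level).comp X.K.subtype), fun x hx => by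
      show ((Split.coord 1 (f.1 ⟨p • (x : X.P), _⟩) : ℤ) : ZMod p) = 0
      rw [show (⟨p • (x : X.P), _⟩ : X.S) = p • ⟨x, (X.ker x).mp hx⟩ from rfl, map_nsmul,
        map_nsmul, nsmul_eq_mul, Int.cast_mul, Int.cast_natCast, ZMod.natCast_self, zero_mul]⟩

theorem splitFun_apply (f : equivHom (C := Split u) X.hS) (x : X.K) :
    splitFun X f (X.π x) = (Split.coord 1 (f.1 (mulP X.level (x : X.P))) : ZMod p) :=
  AddMonoidHom.liftOfRightInverse_comp_apply X.π _ _
    (⟨_, _⟩ : { g : X.K →+ ZMod p // X.π.ker ≤ g.ker }) x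

/-- The connecting functional, as a homomorphism. -/
def splitHom : equivHom (C := Split u) X.hS →+ (A →+ ZMod p) :=
  AddMonoidHom.mk' (splitFun X) fun f f' => AddMonoidHom.ext fun a => by
    obtain ⟨x, rfl⟩ := X.surj a
    show splitFun X (f + f') (X.π x) = splitFun X f (X.π x) + splitFun X f' (X.π x)
    rw [splitFun_apply, splitFun_apply, splitFun_apply, ← Int.cast_add, ← map_add]
    rfl

/-- The index of the splitting module exceeds that of the class module by the functionals hit by
the connecting map. -/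
theorem index_split_eq [Finite A] (hfull : ∀ x : X.P, x ∈ X.K) (hC : ModPFinite p C) :
    X.index (Split u) = X.index C + lpN p (Nat.card (splitHom (u := u) X).range) := by
  have hi : ∀ (g : G) (c : C), Split.inl (u := u) (g • c) = g • Split.inl c :=
    fun g c => (Split.smul_inl g c).symm
  have hinj : Function.Injective (Split.inl (u := u)) := fun _ _ h => congrArg Split.fstHom h
  have hsnd0 : ∀ g : equivHom (C := Split u) X.hK, (∀ s : X.S, ∀ z : G,
      Split.coord z (g.1 (AddSubgroup.inclusion X.le s)) = 0) →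
        ∀ (x : X.K) (z : G), Split.coord z (g.1 x) = 0 := fun g hg x z => by
    have h := hg ⟨p • (x : X.P), X.level x⟩ z
    rw [show AddSubgroup.inclusion X.le ⟨p • (x : X.P), X.level x⟩ = p • x from rfl, map_nsmul,
      map_nsmul, nsmul_eq_mul] at h
    exact (mul_eq_zero.mp h).resolve_left (Nat.cast_ne_zero.mpr hp.out.ne_zero)
  let j : equivHom (C := C) X.hS →+ equivHom (C := Split u) X.hS := postHom X.hS Split.inl hi
  have hker : Nat.card (X.res (Split u)).ker = Nat.card (X.res C).ker := by
    refine (Nat.card_congr (Equiv.ofBijective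
      (fun f : (X.res C).ker => (⟨postHom X.hK Split.inl hi f.1, by
        refine (resHom_eq_zero_iff X.hK X.hS X.le _).mpr fun x hx => ?_
        rw [postHom_apply, (resHom_eq_zero_iff X.hK X.hS X.le f.1).mp f.2 x hx, map_zero]⟩ :
          (X.res (Split u)).ker)) ⟨fun f f' h => ?_, fun f => ?_⟩)).symm
    · exact Subtype.ext (postHom_injective _ _ _ hinj (congrArg Subtype.val h))
    · have h0 := hsnd0 f.1 fun s z => by
        rw [(resHom_eq_zero_iff X.hK X.hS X.le f.1).mp f.2 _ s.2, map_zero]
      obtain ⟨f₀, hf₀⟩ := exists_postHom_eq X.hK Split.inl hi hinj f.1 fun x =>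
        ⟨_, (Split.eq_inl_of_coord _ (h0 x)).symm⟩
      refine ⟨⟨f₀, (resHom_eq_zero_iff X.hK X.hS X.le _).mpr fun x hx => hinj ?_⟩,
        Subtype.ext hf₀⟩
      rw [map_zero, ← postHom_apply X.hK Split.inl hi f₀ x, hf₀]
      exact (resHom_eq_zero_iff X.hK X.hS X.le f.1).mp f.2 x hx
  set R := (X.res (Split u)).range with hR
  have hj : R.comap j = (X.res C).range := by
    refine le_antisymm ?_ ?_
    · rintro f ⟨g, hg⟩
      have hgs : ∀ s : X.S, g.1 (AddSubgroup.inclusion X.le s) = Split.inl (f.1 s) := fun s =>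
        DFunLike.congr_fun (congrArg Subtype.val hg) s
      have h0 := hsnd0 g fun s z => by rw [hgs]; rfl
      obtain ⟨g₀, hg₀⟩ := exists_postHom_eq X.hK Split.inl hi hinj g fun x =>
        ⟨_, (Split.eq_inl_of_coord _ (h0 x)).symm⟩
      refine ⟨g₀, Subtype.ext (AddMonoidHom.ext fun s => hinj ?_)⟩
      show Split.inl (g₀.1 _) = Split.inl (f.1 s)
      rw [← postHom_apply X.hK Split.inl hi g₀, hg₀, hgs]
    · rintro _ ⟨g, rfl⟩
      exact ⟨postHom X.hK Split.inl hi g, rfl⟩
  have hle : R ≤ (splitHom (u := u) X).ker := by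
    rintro _ ⟨g, rfl⟩
    refine AddMonoidHom.ext fun a => ?_
    obtain ⟨x, rfl⟩ := X.surj a
    show splitFun X _ (X.π x) = 0
    rw [splitFun_apply]
    show ((Split.coord 1 (g.1 (p • x)) : ℤ) : ZMod p) = 0
    rw [map_nsmul, map_nsmul, nsmul_eq_mul, Int.cast_mul, Int.cast_natCast, ZMod.natCast_self,
      zero_mul]
  have hkerle : (splitHom (u := u) X).ker ≤ R ⊔ j.range := by
    intro f hf
    have h1 : ∀ (x : X.K) (z : G),
        (p : ℤ) ∣ Split.coord z (f.1 (mulP X.level (x : X.P))) := fun x z => by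
      have h := DFunLike.congr_fun (AddMonoidHom.mem_ker.mp hf) (X.π (smulS X.hK z⁻¹ x))
      change splitFun X f (X.π (smulS X.hK z⁻¹ x)) = 0 at h
      rw [splitFun_apply, coe_smulS, ← smulS_mulP X.hS X.level, f.2, Split.coord_smul, inv_inv,
        mul_one] at h
      exact (ZMod.intCast_zmod_eq_zero_iff_dvd _ _).mp h
    choose w hw using h1
    have huniq : ∀ {a b : ℤ}, (p : ℤ) * a = p * b → a = b := fun h =>
      mul_left_cancel₀ (Int.natCast_ne_zero.mpr hp.out.ne_zero) h
    have hwsum : ∀ x : X.K, ∑ z : G, w x z = 0 := fun x => huniq (by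
      rw [Finset.mul_sum, mul_zero, ← Split.sum_coord (f.1 (mulP X.level (x : X.P)))]
      exact Finset.sum_congr rfl fun z _ => (hw x z).symm)
    let ω : X.K →+ Split u := AddMonoidHom.mk' (fun x => Split.mk 0 ⟨w x, hwsum x⟩) fun x y => by
      refine Split.ext ?_ (Subtype.ext (funext fun z => huniq ?_))
      · show (0 : C) = 0 + 0
        rw [add_zero]
      · show (p : ℤ) * w (x + y) z = p * (w x z + w y z)
        rw [← hw, AddSubgroup.coe_add, map_add, map_add, map_add, hw, hw, mul_add]
    -- make it equivariant using that the lattice is induced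
    obtain ⟨T, hT⟩ := X.induced
    let e : X.P →+ X.K := AddMonoidHom.mk' (fun x => ⟨x, hfull x⟩) fun _ _ => rfl
    let g : equivHom (C := Split u) X.hK :=
      ⟨normOn X.hK ((ω.comp (e.comp T)).comp X.K.subtype), isEquivariantOn_normOn _ _⟩
    have hgsnd : ∀ (x : X.K) (z : G), Split.coord z (g.1 x) = w x z := by
      intro x z
      have hwadd : ∀ z' : G, ∀ a b : X.K, w (a + b) z' = w a z' + w b z' := fun z' a b =>
        huniq (by rw [← hw, AddSubgroup.coe_add, map_add, map_add, map_add, hw, hw, mul_add])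
      let wz : X.P →+ ℤ := AddMonoidHom.mk' (fun y => w (e y) z) fun a b => hwadd z (e a) (e b)
      show Split.coord z (normOn X.hK _ x) = w x z
      rw [normOn_apply, map_sum]
      have hterm : ∀ h : G, Split.coord z (h • ((ω.comp (e.comp T)).comp X.K.subtype)
          (smulS X.hK h⁻¹ x)) = wz (h • T (h⁻¹ • (x : X.P))) := fun h => huniq (by
        rw [Split.coord_smul]
        show (p : ℤ) * w (e (T (h⁻¹ • (x : X.P)))) (h⁻¹ * z) =
          p * w (e (h • T (h⁻¹ • (x : X.P)))) z
        rw [← hw, ← hw]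
        show _ = Split.coord z (f.1 (mulP X.level (h • T (h⁻¹ • (x : X.P)))))
        rw [← smulS_mulP X.hS X.level, f.2, Split.coord_smul]
        rfl)
      rw [Finset.sum_congr rfl fun h _ => hterm h, ← map_sum, hT]
      rfl
    have hcoord : ∀ (s : X.S) (z : G), Split.coord z ((f - X.res (Split u) g).1 s) = 0 :=
      fun s z => by
      show Split.coord z (f.1 s - g.1 (AddSubgroup.inclusion X.le s)) = 0
      rw [map_sub, hgsnd, sub_eq_zero]
      refine huniq ?_
      rw [← hw, show mulP X.level ((AddSubgroup.inclusion X.le s : X.K) : X.P) = p • s from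
        mulP_coe X.level s, map_nsmul, map_nsmul, nsmul_eq_mul]
    obtain ⟨f₀, hf₀⟩ := exists_postHom_eq X.hS Split.inl hi hinj (f - X.res (Split u) g) fun s =>
      ⟨_, (Split.eq_inl_of_coord _ (hcoord s)).symm⟩
    exact AddSubgroup.mem_sup.mpr ⟨X.res (Split u) g, ⟨g, rfl⟩, _, ⟨f₀, rfl⟩, by
      rw [show j f₀ = _ from hf₀]; abel⟩
  have heq : (splitHom (u := u) X).ker = R ⊔ j.range := by
    refine le_antisymm hkerle (sup_le hle ?_)
    rintro _ ⟨f, rfl⟩
    refine AddMonoidHom.ext fun a => ?_
    obtain ⟨x, rfl⟩ := X.surj a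
    show splitFun X _ (X.π x) = 0
    rw [splitFun_apply]
    show ((Split.coord 1 (Split.inl (f.1 _)) : ℤ) : ZMod p) = 0
    rw [Split.coord_inl, Int.cast_zero]
  have hrel : R.relIndex (splitHom (u := u) X).ker = (X.res C).range.index := by
    rw [heq, AddSubgroup.relIndex_sup_left, ← AddSubgroup.index_comap, hj]
  have hidx : R.index = (X.res C).range.index * Nat.card (splitHom (u := u) X).range := by
    rw [← hrel, ← AddSubgroup.index_ker, AddSubgroup.relIndex_mul_index hle]
  haveI := finite_dual (A := A) (p := p)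
  rw [Pres.index, Pres.index, lpIndex, lpIndex, ← hR, hidx, hker,
    lpN_mul p (X.finiteIndexHom hC).index Nat.card_pos.ne']
  ring

/-- The connecting functionals kill invariant elements. -/
theorem splitHom_apply_fixPts (hu : IsClassFormation p u) (f : equivHom (C := Split u) X.hS)
    {a : A} (ha : a ∈ fixPts G A) : splitHom X f a = 0 := by
  classical
  obtain ⟨x, rfl⟩ := X.surj a
  have hmem : ∀ g : G, g • (x : X.P) - x ∈ X.S := fun g => by
    refine (X.ker (smulS X.hK g x - x)).mp ?_
    rw [map_sub, X.equi, ha g, sub_self]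
  set v := f.1 (mulP X.level (x : X.P)) with hv
  have hshift : ∀ g : G, g • v - v = p • f.1 ⟨_, hmem g⟩ := fun g => by
    rw [hv, ← f.2, smulS_mulP X.hS X.level, ← map_sub, ← map_sub, ← map_nsmul]
    exact congrArg f.1 (mulP_coe X.level ⟨_, hmem g⟩)
  obtain ⟨P⟩ := Sylow.nonempty (p := p) (G := G)
  haveI : Fintype (P : Subgroup G) := Fintype.ofFinite _
  obtain ⟨w, hw⟩ := Split.h1Zero hu (P : Subgroup G) P.isPGroup'
    (fun h => f.1 ⟨_, hmem (h : G)⟩) fun h h' => by
      show f.1 _ = (h : G) • f.1 _ + f.1 _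
      rw [← f.2, ← map_add]
      refine congrArg f.1 (Subtype.ext ?_)
      show ((h * h' : (P : Subgroup G)) : G) • (x : X.P) - x =
        (h : G) • ((h' : G) • (x : X.P) - x) + ((h : G) • (x : X.P) - x)
      rw [Subgroup.coe_mul, mul_smul, smul_sub]
      abel
  set y := v - p • w with hy
  have hinv : ∀ h : (P : Subgroup G), (h : G) • y = y := fun h => by
    have h1 := hshift (h : G)
    rw [show f.1 ⟨_, hmem (h : G)⟩ = (h : G) • w - w from (hw h).symm, smul_sub] at h1
    rw [hy, smul_sub, smul_comm (h : G) p w, sub_eq_sub_iff_sub_eq_sub]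
    exact h1
  show splitFun X f (X.π x) = 0
  rw [splitFun_apply, ← hv]
  have hmod : ∀ z : G, ((Split.coord z y : ℤ) : ZMod p) = (Split.coord 1 v : ZMod p) := by
    intro z
    have h2 : Split.coord 1 (z⁻¹ • v) = Split.coord z v := by
      rw [Split.coord_smul, inv_inv, mul_one]
    have h3 := congrArg (Split.coord 1) (hshift z⁻¹)
    rw [map_sub, h2, map_nsmul, nsmul_eq_mul, sub_eq_iff_eq_add] at h3
    rw [hy, map_sub, map_nsmul, nsmul_eq_mul, h3]
    simp
  have hsum : ∑ q : G ⧸ (P : Subgroup G), Split.coord q.out⁻¹ y = 0 := by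
    have h0 : ∑ z : G, Split.coord z⁻¹ y = 0 :=
      (Fintype.sum_equiv (Equiv.inv G) _ _ fun _ => rfl).trans (Split.sum_coord y)
    rw [sum_coset (P : Subgroup G)] at h0
    have h1 : ∀ (q : G ⧸ (P : Subgroup G)) (h : (P : Subgroup G)),
        Split.coord (q.out * (h : G))⁻¹ y = Split.coord q.out⁻¹ y := fun q h => by
      conv_rhs => rw [← hinv h, Split.coord_smul, ← mul_inv_rev]
    simp only [h1, Finset.sum_const, Finset.card_univ, nsmul_eq_mul, ← Finset.mul_sum] at h0
    exact (mul_eq_zero.mp h0).resolve_left (Nat.cast_ne_zero.mpr Fintype.card_ne_zero)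
  have h4 : ((P : Subgroup G).index : ZMod p) * (Split.coord 1 v : ZMod p) = 0 := by
    have h := congrArg (Int.cast : ℤ → ZMod p) hsum
    rw [Int.cast_sum, Int.cast_zero] at h
    rw [Finset.sum_congr rfl fun q _ => hmod q.out⁻¹, Finset.sum_const, Finset.card_univ,
      nsmul_eq_mul] at h
    rwa [Subgroup.index, Nat.card_eq_fintype_card]
  exact (mul_eq_zero.mp h4).resolve_left fun h =>
    P.not_dvd_index ((ZMod.natCast_eq_zero_iff _ _).mp h)

/-- Locally: the defect is at most the functionals killing the invariants. -/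
theorem index_split_le [Finite A] (hfull : ∀ x : X.P, x ∈ X.K) (hC : ModPFinite p C)
    (hu : IsClassFormation p u) (hA : ∀ a : A, p • a = 0) :
    X.index (Split u) + lpN p (Nat.card (fixPts G A)) ≤ X.index C + lpN p (Nat.card A) := by
  letI : Module (ZMod p) A := AddCommGroup.zmodModule hA
  haveI := finite_dual (A := A) (p := p)
  haveI := finite_dual (A := fixPts G A) (p := p)
  let res : (A →+ ZMod p) →+ (fixPts G A →+ ZMod p) :=
    AddMonoidHom.mk' (fun ν => ν.comp (fixPts G A).subtype) fun _ _ => rfl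
  have hres : Function.Surjective res := fun ν => by
    obtain ⟨L, hL⟩ := exists_extend_zmod (p := p) (fixPts G A) ν
    exact ⟨L, AddMonoidHom.ext hL⟩
  have hle : (splitHom (u := u) X).range ≤ res.ker := by
    rintro _ ⟨f, rfl⟩
    exact AddMonoidHom.ext fun a => splitHom_apply_fixPts X hu f a.2
  have hcard : Nat.card A = Nat.card res.ker * Nat.card (fixPts G A) := by
    rw [← card_dual (p := p) hA,
      ← card_dual (p := p) (A := fixPts G A) fun a => Subtype.ext (hA a.1),
      ← res.ker.card_mul_index, AddSubgroup.index_ker, AddMonoidHom.range_eq_top.mpr hres,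
      AddSubgroup.card_top]
  rw [index_split_eq X hfull hC, hcard, lpN_mul p Nat.card_pos.ne' Nat.card_pos.ne']
  have h := lpN_mono p (AddSubgroup.card_dvd_of_le hle) Nat.card_pos.ne'
  linarith

/-- The functionals `μ (g •) - μ` are hit by the connecting map. -/
theorem coboundary_mem_range_splitHom (hfull : ∀ x : X.P, x ∈ X.K) (g : G) (μ : A →+ ZMod p) :
    μ.comp (DistribSMul.toAddMonoidHom A g) - μ ∈ (splitHom (u := u) X).range := by
  classical
  haveI := free_subgroup (P := X.P) X.S
  let e : X.P →+ X.K := AddMonoidHom.mk' (fun x => ⟨x, hfull x⟩) fun _ _ => rfl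
  obtain ⟨W, hW⟩ := exists_lift_mulP X.level ((μ.comp X.π).comp e) fun x hx => by
    show μ (X.π ⟨x, _⟩) = 0
    rw [(X.ker _).mpr hx, map_zero]
  let φ : X.S →+ Split u := (zmultiplesHom (Split u) (Split.lift g)).comp W
  refine ⟨⟨normOn X.hS φ, isEquivariantOn_normOn _ _⟩, AddMonoidHom.ext fun a => ?_⟩
  obtain ⟨x, rfl⟩ := X.surj a
  show splitFun X _ (X.π x) = μ (g • X.π x) - μ (X.π x)
  rw [splitFun_apply]
  show ((Split.coord 1 (normOn X.hS φ (mulP X.level (x : X.P))) : ℤ) : ZMod p) = _
  have hterm : ∀ h : G,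
      ((Split.coord 1 (h • φ (smulS X.hS h⁻¹ (mulP X.level (x : X.P)))) : ℤ) : ZMod p) =
        μ (h⁻¹ • X.π x) * ((if h⁻¹ = g then 1 else 0) - (if h⁻¹ = 1 then 1 else 0)) := by
    intro h
    rw [Split.coord_smul, mul_one, smulS_mulP X.hS X.level]
    show ((Split.coord h⁻¹ (W (mulP X.level (h⁻¹ • (x : X.P))) • Split.lift g) : ℤ) : ZMod p) = _
    rw [map_zsmul, smul_eq_mul, Int.cast_mul, hW, Split.coord_lift]
    show μ (X.π (smulS X.hK h⁻¹ x)) * _ = _
    rw [X.equi]
    congr 1
    split_ifs <;> simp
  rw [normOn_apply, map_sum, Int.cast_sum, Finset.sum_congr rfl fun h _ => hterm h]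
  refine Eq.trans (Fintype.sum_equiv (Equiv.inv G) _
      (fun z => μ (z • X.π x) * ((if z = g then 1 else 0) - (if z = 1 then 1 else 0)))
      fun _ => rfl) ?_
  simp [mul_sub, Finset.sum_sub_distrib]

/-- Globally, without invariant elements, every functional is hit. -/
theorem index_split_of_fixPts_eq_bot [Finite A] (hfull : ∀ x : X.P, x ∈ X.K)
    (hC : ModPFinite p C) (hA : ∀ a : A, p • a = 0) (hfix : fixPts G A = ⊥) :
    X.index (Split u) = X.index C + lpN p (Nat.card A) := by
  classical
  letI : Module (ZMod p) A := AddCommGroup.zmodModule hA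
  suffices h : (splitHom (u := u) X).range = ⊤ by
    rw [index_split_eq X hfull hC, h, AddSubgroup.card_top, card_dual hA]
  have key := coboundary_mem_range_splitHom (u := u) X hfull
  refine eq_top_iff.mpr fun ν _ => ?_
  let Ψ : A →+ (G → A) := AddMonoidHom.mk' (fun a g => g • a - a) fun a b => funext fun g => by
    show g • (a + b) - (a + b) = (g • a - a) + (g • b - b)
    rw [smul_add]
    abel
  have hΨ : Function.Injective Ψ := (injective_iff_map_eq_zero _).mpr fun a ha => by
    have : a ∈ fixPts G A := fun g => sub_eq_zero.mp (congrFun ha g)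
    rwa [hfix, AddSubgroup.mem_bot] at this
  obtain ⟨L, hL⟩ := exists_extend_zmod (p := p) Ψ.range
    (ν.comp (AddMonoidHom.ofInjective hΨ).symm.toAddMonoidHom)
  have hν : ν = ∑ g : G, ((L.comp (AddMonoidHom.single (fun _ : G => A) g)).comp
      (DistribSMul.toAddMonoidHom A g) - L.comp (AddMonoidHom.single (fun _ : G => A) g)) :=
    AddMonoidHom.ext fun a => by
      have h1 : L (Ψ a) = ν a := by
        refine (hL ⟨Ψ a, a, rfl⟩).trans ?_
        show ν ((AddMonoidHom.ofInjective hΨ).symm _) = ν a
        exact congrArg ν ((AddMonoidHom.ofInjective hΨ).symm_apply_apply a)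
      rw [← h1, AddMonoidHom.finsetSum_apply]
      conv_lhs => rw [← Finset.univ_sum_single (Ψ a), map_sum]
      refine Finset.sum_congr rfl fun g _ => ?_
      show L (Pi.single g (g • a - a)) = L (Pi.single g (g • a)) - L (Pi.single g a)
      rw [← map_sub, ← Pi.single_sub]
  rw [hν]
  exact AddSubgroup.sum_mem _ fun g _ => key g _

end Fermat.Agent.CFT.Euler
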